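/-
S48 brick I (helper151): lifting idempotents of matrix rings along a "henselian-like" reduction map.

`exists_idem_lift`: let `φ : R →+* k` be a ring hom to a field such that
 * every `a` with `φ a ≠ 0` is a unit of `R`, and
 * every monic polynomial over `R` is a product of linear factors over `R`.
Then every matrix `x` over `R` whose reduction is idempotent has a polynomial `p` with `p(x)` idempotent and
`p(x) ≡ x`.  (Coprime factorisation of the characteristic polynomial by the residues of its roots and
Cayley-Hamilton.)  Mathlib only.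
-/
import Mathlib

set_option autoImplicit false

open Polynomial

namespace Fermat.Agent.S48.LiftRep

/-- A product of elements coprime to `y` is coprime to `y` (multiset form). -/
theorem isCoprime_multiset_prod_left {A : Type*} [CommRing A] {ι : Type*} (s : Multiset ι)
    (f : ι → A) (y : A) (h : ∀ a ∈ s, IsCoprime (f a) y) : IsCoprime (s.map f).prod y := by
  induction s using Multiset.induction_on with
  | empty =>
    rw [Multiset.map_zero, Multiset.prod_zero]
    exact isCoprime_one_left
  | cons a s ih =>
    rw [Multiset.map_cons, Multiset.prod_cons]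
    exact IsCoprime.mul_left (h a (Multiset.mem_cons_self a s))
      (ih fun b hb => h b (Multiset.mem_cons_of_mem hb))

/-- For an idempotent `y` with `y ^ a * (y - 1) ^ b = 0`. -/
theorem idem_aux {A : Type*} [Ring A] (y : A) (hy : y * y = y) (a b : ℕ)
    (h : y ^ a * (y - 1) ^ b = 0) : y ^ a * (1 - y) = 0 ∧ (y - 1) ^ b * y = 0 := by
  have hyI : IsIdempotentElem y := hy
  have hzI : IsIdempotentElem (1 - y) := hyI.one_sub
  have hyz : y * (1 - y) = 0 := by rw [mul_sub, mul_one, hy, sub_self]
  have hzy : (1 - y) * y = 0 := by rw [sub_mul, one_mul, hy, sub_self]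
  have hsign : ∀ m : ℕ, ((-1 : A)) ^ m * ((-1 : A) ^ m) = 1 := by
    intro m
    rw [← pow_add, ← two_mul, pow_mul, neg_one_sq, one_pow]
  have hzpow : ∀ m : ℕ, m ≠ 0 → (y - 1) ^ m = (-1 : A) ^ m * (1 - y) := by
    intro m hm
    have : y - 1 = -(1 - y) := by rw [neg_sub]
    rw [this, neg_pow, hzI.pow_eq hm]
  have hone : (1 : A) = 0 → ∀ w : A, w = 0 := by
    intro h10 w
    calc w = w * 1 := (mul_one w).symm
      _ = 0 := by rw [h10, mul_zero]
  constructor
  · rcases Nat.eq_zero_or_pos a with rfl | ha
    · rw [pow_zero, one_mul] at h ⊢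
      rcases Nat.eq_zero_or_pos b with rfl | hb
      · rw [pow_zero] at h
        exact hone h _
      · rw [hzpow b hb.ne'] at h
        calc (1 - y) = ((-1 : A) ^ b * (-1 : A) ^ b) * (1 - y) := by rw [hsign, one_mul]
          _ = (-1 : A) ^ b * ((-1 : A) ^ b * (1 - y)) := by rw [mul_assoc]
          _ = 0 := by rw [h, mul_zero]
    · rw [hyI.pow_eq ha.ne']
      exact hyz
  · rcases Nat.eq_zero_or_pos b with rfl | hb
    · rw [pow_zero, mul_one] at h
      rw [pow_zero, one_mul]
      rcases Nat.eq_zero_or_pos a with rfl | ha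
      · rw [pow_zero] at h
        exact hone h _
      · rwa [hyI.pow_eq ha.ne'] at h
    · rw [hzpow b hb.ne', mul_assoc, hzy, mul_zero]

/-- Reduction of a polynomial in a matrix. -/
theorem map_aeval_matrix {R k : Type*} [CommRing R] [CommRing k] (φ : R →+* k)
    {N : Type*} [Fintype N] [DecidableEq N] (x : Matrix N N R) (q : R[X]) :
    (aeval x q).map φ = aeval (x.map φ) (q.map φ) := by
  have h1 : (aeval x q).map φ = φ.mapMatrix (aeval x q) := rfl
  rw [h1, Polynomial.aeval_def, Polynomial.hom_eval₂, Polynomial.aeval_def, Polynomial.eval₂_map]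
  congr 1
  ext a i j
  simp only [RingHom.coe_comp, Function.comp_apply, RingHom.mapMatrix_apply, Matrix.map_apply,
    Matrix.algebraMap_matrix_apply]
  split_ifs <;> simp

/-- **Idempotent lifting** inside `R[x]`. -/
theorem exists_idem_lift {R k : Type*} [CommRing R] [Field k] (φ : R →+* k)
    (hunit : ∀ a : R, φ a ≠ 0 → IsUnit a)
    (hsplit : ∀ f : R[X], f.Monic → ∃ s : Multiset R, f = (s.map fun a => X - C a).prod)
    {N : Type*} [Fintype N] [DecidableEq N] (x : Matrix N N R)
    (hx : x.map φ * x.map φ = x.map φ) :
    ∃ p : R[X], aeval x p * aeval x p = aeval x p ∧ (aeval x p).map φ = x.map φ := by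
  classical
  obtain ⟨s, hs⟩ := hsplit x.charpoly (Matrix.charpoly_monic x)
  set y := x.map φ with hy
  have hcy : y.charpoly = (s.map fun a => X - C (φ a)).prod := by
    have h1 : y.charpoly = x.charpoly.map φ := (Matrix.charpoly_map x φ)
    rw [h1, hs, Polynomial.map_multiset_prod, Multiset.map_map]
    congr 1
    apply Multiset.map_congr rfl
    intro a _
    simp
  -- the roots reduce to `0` or `1`
  have h01 : ∀ a ∈ s, φ a = 0 ∨ φ a = 1 := by
    intro a ha
    have hroot : y.charpoly.eval (φ a) = 0 := by
      rw [hcy, Polynomial.eval_multiset_prod]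
      apply Multiset.prod_eq_zero
      rw [Multiset.mem_map]
      refine ⟨X - C (φ a), Multiset.mem_map.2 ⟨a, ha, rfl⟩, by simp⟩
    rw [Matrix.eval_charpoly] at hroot
    obtain ⟨v, hv0, hv⟩ := Matrix.exists_mulVec_eq_zero_iff.2 hroot
    have h1 : y.mulVec v = φ a • v := by
      rw [Matrix.sub_mulVec, sub_eq_zero] at hv
      rw [← hv]
      ext i
      simp [Matrix.mulVec, dotProduct, Matrix.scalar_apply, Matrix.diagonal_apply]
    have h2 : (φ a * φ a) • v = φ a • v := by
      calc (φ a * φ a) • v = φ a • (φ a • v) := (smul_smul _ _ _).symm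
        _ = φ a • y.mulVec v := by rw [h1]
        _ = y.mulVec (φ a • v) := (Matrix.mulVec_smul _ _ _).symm
        _ = y.mulVec (y.mulVec v) := by rw [h1]
        _ = (y * y).mulVec v := Matrix.mulVec_mulVec _ _ _
        _ = y.mulVec v := by rw [hx]
        _ = φ a • v := h1
    obtain ⟨i, hi⟩ : ∃ i, v i ≠ 0 := by
      by_contra hcon
      push Not at hcon
      exact hv0 (funext hcon)
    have h3 : (φ a * φ a) * v i = φ a * v i := congrFun h2 i
    have h4 : φ a * φ a = φ a := mul_right_cancel₀ hi h3
    have h5 : φ a * (φ a - 1) = 0 := by rw [mul_sub, mul_one, h4, sub_self]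
    rcases mul_eq_zero.1 h5 with h | h
    · exact Or.inl h
    · exact Or.inr (sub_eq_zero.1 h)
  set s0 := s.filter (fun a => φ a = 0) with hs0
  set s1 := s.filter (fun a => ¬ φ a = 0) with hs1
  set g : R[X] := (s0.map fun a => X - C a).prod with hg
  set h : R[X] := (s1.map fun a => X - C a).prod with hh
  have hgh : x.charpoly = g * h := by
    rw [hs, hg, hh, ← Multiset.prod_add, ← Multiset.map_add, hs0, hs1, Multiset.filter_add_not]
  have hcop : IsCoprime g h := by
    apply isCoprime_multiset_prod_left
    intro a ha
    apply IsCoprime.symm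
    apply isCoprime_multiset_prod_left
    intro b hb
    have ha0 : φ a = 0 := (Multiset.mem_filter.1 ha).2
    have hb1 : φ b = 1 := by
      rcases h01 b (Multiset.mem_filter.1 hb).1 with h | h
      · exact absurd h (Multiset.mem_filter.1 hb).2
      · exact h
    have hu : IsUnit (a - b) := by
      apply hunit
      rw [map_sub, ha0, hb1]
      simp
    obtain ⟨w, hw⟩ := hu
    refine ⟨C (↑w⁻¹ : R), -C (↑w⁻¹ : R), ?_⟩
    have h1 : C (↑w⁻¹ : R) * (X - C b) + -C (↑w⁻¹ : R) * (X - C a) = C ((↑w⁻¹ : R) * (a - b)) := by
      rw [C_mul, C_sub]; ring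
    rw [h1, ← hw, Units.inv_mul, C_1]
  obtain ⟨u, v, huv⟩ := hcop
  refine ⟨u * g, ?_, ?_⟩
  · -- idempotent
    have key : (u * g) * (u * g) - u * g = -(u * v) * x.charpoly := by
      rw [hgh]
      linear_combination (u * g) * huv
    have h0 : aeval x ((u * g) * (u * g) - u * g) = 0 := by
      rw [key, map_mul, Matrix.aeval_self_charpoly, mul_zero]
    rw [map_sub, map_mul, sub_eq_zero] at h0
    exact h0
  · -- reduction
    rw [map_aeval_matrix, ← hy]
    have hgbar : g.map φ = X ^ (Multiset.card s0) := by
      rw [hg, Polynomial.map_multiset_prod, Multiset.map_map]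
      have : Multiset.map ((fun q : R[X] => q.map φ) ∘ fun a => X - C a) s0
          = Multiset.map (fun _ => (X : k[X])) s0 := by
        apply Multiset.map_congr rfl
        intro a ha
        have ha0 : φ a = 0 := (Multiset.mem_filter.1 ha).2
        simp [ha0]
      rw [this, Multiset.map_const', Multiset.prod_replicate]
    have hhbar : h.map φ = (X - 1) ^ (Multiset.card s1) := by
      rw [hh, Polynomial.map_multiset_prod, Multiset.map_map]
      have : Multiset.map ((fun q : R[X] => q.map φ) ∘ fun a => X - C a) s1
          = Multiset.map (fun _ => (X - 1 : k[X])) s1 := by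
        apply Multiset.map_congr rfl
        intro b hb
        have hb1 : φ b = 1 := by
          rcases h01 b (Multiset.mem_filter.1 hb).1 with h | h
          · exact absurd h (Multiset.mem_filter.1 hb).2
          · exact h
        simp [hb1]
      rw [this, Multiset.map_const', Multiset.prod_replicate]
    have hCH : y ^ (Multiset.card s0) * (y - 1) ^ (Multiset.card s1) = 0 := by
      have h1 : aeval y y.charpoly = 0 := Matrix.aeval_self_charpoly y
      have h2 : y.charpoly = g.map φ * h.map φ := by
        rw [← Polynomial.map_mul, ← hgh]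
        exact Matrix.charpoly_map x φ
      rw [h2, hgbar, hhbar, map_mul, map_pow, map_pow, map_sub, aeval_X, map_one] at h1
      exact h1
    obtain ⟨hA, hB⟩ := idem_aux y hx _ _ hCH
    have huv' : aeval y (u.map φ) * y ^ (Multiset.card s0)
        + aeval y (v.map φ) * (y - 1) ^ (Multiset.card s1) = 1 := by
      have h1 : (u * g + v * h).map φ = 1 := by rw [huv, Polynomial.map_one]
      rw [Polynomial.map_add, Polynomial.map_mul, Polynomial.map_mul, hgbar, hhbar] at h1
      have h2 := congrArg (aeval y) h1
      simp only [map_add, map_mul, map_pow, map_sub, aeval_X, map_one] at h2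
      exact h2
    rw [Polynomial.map_mul, hgbar, map_mul, map_pow, aeval_X]
    set U := aeval y (u.map φ) with hU
    set V := aeval y (v.map φ) with hV
    have e1 : U * y ^ (Multiset.card s0) * (1 - y) = 0 := by rw [mul_assoc, hA, mul_zero]
    have e2 : U * y ^ (Multiset.card s0) = U * y ^ (Multiset.card s0) * y := by
      rw [mul_sub, mul_one, sub_eq_zero] at e1
      exact e1
    have e3 : y = U * y ^ (Multiset.card s0) * y := by
      calc y = 1 * y := (one_mul y).symm
        _ = (U * y ^ (Multiset.card s0) + V * (y - 1) ^ (Multiset.card s1)) * y := by rw [huv']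
        _ = U * y ^ (Multiset.card s0) * y + V * ((y - 1) ^ (Multiset.card s1) * y) := by
            rw [add_mul, mul_assoc V]
        _ = U * y ^ (Multiset.card s0) * y := by rw [hB, mul_zero, add_zero]
    rw [e2, ← e3]

end Fermat.Agent.S48.LiftRep
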