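/-
S48 brick I (helper151): the local ring of algebraic integers at the kernel of a reduction map
`r : integralClosure ℤ ℂ →+* k` (k a field), as an abstract package `exists_loc`:
a ring `R` between the algebraic integers and `ℂ` on which `r` extends, whose non-units are killed by the
extension, and over which every monic polynomial splits into linear factors.  Also: `r` is surjective
as soon as every element of `k` is integral over `ℤ` (e.g. `k` algebraic over `ZMod ℓ`).  Mathlib only.
-/
import Mathlib

set_option autoImplicit false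

open Polynomial

namespace Fermat.Agent.S48.LiftRep

/-- Monic polynomials split over a ring `S ⊆ ℂ` containing every complex number integral over it. -/
theorem exists_roots_of_closed {S : Type*} [CommRing S] (ι : S →+* ℂ) (hι : Function.Injective ι)
    (hcl : ∀ z : ℂ, (∃ f : S[X], f.Monic ∧ (f.map ι).eval z = 0) → ∃ a, ι a = z)
    (f : S[X]) (hf : f.Monic) : ∃ s : Multiset S, f = (s.map fun a => X - C a).prod := by
  classical
  set F := f.map ι with hF
  have hFm : F.Monic := hf.map ι
  have hsp : F.Splits := IsAlgClosed.splits F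
  have hprod := hsp.eq_prod_roots_of_monic hFm
  have hex : ∀ z ∈ F.roots, ∃ a, ι a = z := fun z hz =>
    hcl z ⟨f, hf, (Polynomial.mem_roots hFm.ne_zero).1 hz⟩
  let s : Multiset S := F.roots.attach.map fun z => Classical.choose (hex z.1 z.2)
  have hs : s.map ι = F.roots := by
    rw [Multiset.map_map]
    conv_rhs => rw [← Multiset.attach_map_val F.roots]
    apply Multiset.map_congr rfl
    intro z _
    exact Classical.choose_spec (hex z.1 z.2)
  refine ⟨s, Polynomial.map_injective ι hι ?_⟩
  rw [← hF, hprod, Polynomial.map_multiset_prod, Multiset.map_map, ← hs, Multiset.map_map]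
  congr 1
  apply Multiset.map_congr rfl
  intro a _
  simp

/-- Monic polynomials over the ring of all algebraic integers split. -/
theorem exists_roots_int (f : (integralClosure ℤ ℂ)[X]) (hf : f.Monic) :
    ∃ s : Multiset (integralClosure ℤ ℂ), f = (s.map fun a => X - C a).prod := by
  apply exists_roots_of_closed (algebraMap (integralClosure ℤ ℂ) ℂ) Subtype.val_injective _ f hf
  rintro z ⟨q, hq, hz⟩
  have h1 : IsIntegral (integralClosure ℤ ℂ) z := ⟨q, hq, by rwa [← Polynomial.eval_map]⟩
  have h2 : IsIntegral ℤ z := isIntegral_trans z h1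
  exact ⟨⟨z, h2⟩, rfl⟩

/-- A reduction map on the algebraic integers is onto any field all of whose elements are
integral over `ℤ`. -/
theorem surjective_of_isIntegral {k : Type*} [Field k] (r : integralClosure ℤ ℂ →+* k)
    (hk : ∀ x : k, IsIntegral ℤ x) : Function.Surjective r := by
  intro x
  obtain ⟨q, hq, hx⟩ := hk x
  obtain ⟨s, hs⟩ := exists_roots_int (q.map (algebraMap ℤ (integralClosure ℤ ℂ))) (hq.map _)
  have h1 : (q.map (algebraMap ℤ (integralClosure ℤ ℂ))).map r = q.map (algebraMap ℤ k) := by
    rw [Polynomial.map_map]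
    congr 1
    exact RingHom.ext_int _ _
  have h3 : (s.map fun a => X - C (r a)).prod = q.map (algebraMap ℤ k) := by
    rw [← h1, hs, Polynomial.map_multiset_prod, Multiset.map_map]
    congr 1
    apply Multiset.map_congr rfl
    intro a _
    simp
  have h2 : ((s.map fun a => X - C (r a)).prod).eval x = 0 := by
    rw [h3, Polynomial.eval_map]
    exact hx
  rw [Polynomial.eval_multiset_prod, Multiset.prod_eq_zero_iff] at h2
  obtain ⟨q', hmem, h0⟩ := Multiset.mem_map.1 h2
  obtain ⟨a, ha, rfl⟩ := Multiset.mem_map.1 hmem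
  refine ⟨a, ?_⟩
  simp only [eval_sub, eval_X, eval_C] at h0
  exact (sub_eq_zero.1 h0).symm

/-- Every element of a field algebraic over `ZMod ℓ` is integral over `ℤ`. -/
theorem isIntegral_int_of_algebraic_zmod (ℓ : ℕ) [Fact ℓ.Prime] {k : Type*} [Field k]
    [Algebra (ZMod ℓ) k] [Algebra.IsAlgebraic (ZMod ℓ) k] (x : k) : IsIntegral ℤ x := by
  have h1 : IsIntegral (ZMod ℓ) x := (Algebra.IsAlgebraic.isAlgebraic x).isIntegral
  have : Algebra.IsIntegral ℤ (ZMod ℓ) :=
    ⟨fun y => (ZMod.intCast_surjective y).elim fun m hm => hm ▸ isIntegral_algebraMap (R := ℤ) (x := m)⟩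
  exact isIntegral_trans x h1

/-- **The localisation package.** -/
theorem exists_loc {k : Type*} [Field k] (r : integralClosure ℤ ℂ →+* k) :
    ∃ (R : Type) (_ : CommRing R) (j : integralClosure ℤ ℂ →+* R) (ι : R →+* ℂ) (φ : R →+* k),
      Function.Injective ι ∧ (∀ a, ι (j a) = (a : ℂ)) ∧ (∀ a, φ (j a) = r a) ∧
      (∀ a : R, φ a ≠ 0 → IsUnit a) ∧
      (∀ f : R[X], f.Monic → ∃ s : Multiset R, f = (s.map fun a => X - C a).prod) ∧
      (Function.Surjective r → Function.Surjective φ) := by
  classical
  set m : Ideal (integralClosure ℤ ℂ) := RingHom.ker r with hm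
  have : m.IsPrime := RingHom.ker_isPrime r
  have hgι : ∀ y : m.primeCompl, IsUnit (algebraMap (integralClosure ℤ ℂ) ℂ y) := by
    intro y
    apply IsUnit.mk0
    intro h0
    have : (y : integralClosure ℤ ℂ) = 0 := Subtype.ext h0
    exact y.2 (this ▸ m.zero_mem)
  have hgφ : ∀ y : m.primeCompl, IsUnit (r y) := by
    intro y
    apply IsUnit.mk0
    intro h0
    exact y.2 ((RingHom.mem_ker).2 h0)
  let R := Localization.AtPrime m
  let ι : R →+* ℂ := IsLocalization.lift hgι
  let φ : R →+* k := IsLocalization.lift hgφ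
  have hιj : ∀ a, ι (algebraMap (integralClosure ℤ ℂ) R a) = (a : ℂ) := fun a =>
    IsLocalization.lift_eq hgι a
  have hφj : ∀ a, φ (algebraMap (integralClosure ℤ ℂ) R a) = r a := fun a =>
    IsLocalization.lift_eq hgφ a
  have hjinj : Function.Injective (algebraMap (integralClosure ℤ ℂ) R) :=
    IsLocalization.injective R (Ideal.primeCompl_le_nonZeroDivisors m)
  have hι : Function.Injective ι := by
    rw [IsLocalization.lift_injective_iff]
    intro a b
    constructor
    · intro h
      rw [hjinj h]
    · intro h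
      have : a = b := Subtype.ext h
      rw [this]
  refine ⟨R, inferInstance, algebraMap (integralClosure ℤ ℂ) R, ι, φ, hι, hιj, hφj, ?_, ?_, ?_⟩
  · -- non-units are killed
    intro a ha
    obtain ⟨x, s, rfl⟩ := IsLocalization.exists_mk'_eq m.primeCompl a
    have h1 : IsLocalization.mk' R x s * algebraMap (integralClosure ℤ ℂ) R s
        = algebraMap (integralClosure ℤ ℂ) R x := IsLocalization.mk'_spec R x s
    have h2 : r x ≠ 0 := by
      intro h0
      have := congrArg φ h1
      rw [map_mul, hφj, hφj, h0] at this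
      rcases mul_eq_zero.1 this with h | h
      · exact ha h
      · exact s.2 ((RingHom.mem_ker).2 h)
    have hx : x ∈ m.primeCompl := fun hxm => h2 ((RingHom.mem_ker).1 hxm)
    have h3 : IsUnit (algebraMap (integralClosure ℤ ℂ) R x) :=
      IsLocalization.map_units R (⟨x, hx⟩ : m.primeCompl)
    rw [← h1] at h3
    exact isUnit_of_mul_isUnit_left h3
  · -- monic polynomials split
    apply exists_roots_of_closed ι hι
    rintro z ⟨q, hq, hz⟩
    let _ : Algebra R ℂ := ι.toAlgebra
    have : IsScalarTower (integralClosure ℤ ℂ) R ℂ :=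
      IsScalarTower.of_algebraMap_eq fun a => (hιj a).symm
    have h1 : IsIntegral R z := ⟨q, hq, by rw [← Polynomial.eval_map]; exact hz⟩
    obtain ⟨⟨t, ht⟩, h2⟩ :=
      IsIntegral.exists_multiple_integral_of_isLocalization m.primeCompl z h1
    have h2' : IsIntegral (integralClosure ℤ ℂ) ((t : ℂ) * z) := by
      have : (⟨t, ht⟩ : m.primeCompl) • z = (t : ℂ) * z := by
        rw [Submonoid.smul_def, Algebra.smul_def]
        rfl
      rw [← this]
      exact h2
    have h3 : IsIntegral ℤ ((t : ℂ) * z) := isIntegral_trans _ h2'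
    refine ⟨IsLocalization.mk' R (⟨(t : ℂ) * z, h3⟩ : integralClosure ℤ ℂ) (⟨t, ht⟩ : m.primeCompl), ?_⟩
    rw [IsLocalization.lift_mk'_spec]
    rfl
  · intro hr y
    obtain ⟨a, rfl⟩ := hr y
    exact ⟨algebraMap (integralClosure ℤ ℂ) R a, hφj a⟩

end Fermat.Agent.S48.LiftRep
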