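/-
S48 brick I (helper151): lifting a representation of a finite group of order prime to the
characteristic from a field `k` of characteristic `ℓ` to `ℂ`, compatibly with characteristic polynomials
(under a fixed reduction map `r` on the algebraic integers).

`exists_lift`: for `ρbar : G →* GL (Fin n) k`, `(|G| : k) ≠ 0` and `r` surjective, there is
`ρ : G →* GL (Fin n) ℂ` such that for every `g` the eigenvalues of `ρ g` form a multiset `s` of
`|G|`-th roots of unity among the algebraic integers whose reduction is the multiset of eigenvalues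
of `ρbar g`.

Proof: Maschke's idempotent on `k^(G × n)`, lifted (IdemLift) over the local ring of algebraic integers
at `ker r` (LocAlg) to an idempotent commuting with the left translations; rank factorisation over `ℂ`;
Sylvester's identity for the characteristic polynomials.
-/
import Mathlib
import Fermat.Agent.S48.LiftRep.IdemLift
import Fermat.Agent.S48.LiftRep.LocAlg

set_option autoImplicit false

open Polynomial

namespace Fermat.Agent.S48.LiftRep

section Defs

variable {G : Type*} [Group G] [Fintype G] [DecidableEq G] (n : ℕ)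

/-- The permutation `(h, i) ↦ (g⁻¹ h, i)`. -/
def sig (g : G) : G × Fin n ≃ G × Fin n := (Equiv.mulLeft g⁻¹).prodCongr (Equiv.refl _)

/-- Left translation by `g` on functions on `G × Fin n`, as a matrix. -/
def Lmat (S : Type*) [Zero S] [One S] (g : G) : Matrix (G × Fin n) (G × Fin n) S :=
  (sig n g).toPEquiv.toMatrix

theorem Lmat_mul (S : Type*) [NonAssocSemiring S] (g h : G) :
    Lmat n S g * Lmat n S h = Lmat n S (g * h) := by
  rw [Lmat, Lmat, Lmat, ← PEquiv.toMatrix_trans, ← Equiv.toPEquiv_trans]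
  congr 2
  ext p <;> simp [sig, mul_assoc]

omit [Fintype G] in
theorem Lmat_one (S : Type*) [NonAssocSemiring S] : Lmat n S (1 : G) = 1 := by
  have : sig n (1 : G) = Equiv.refl _ := by
    ext p <;> simp [sig]
  rw [Lmat, this, Equiv.toPEquiv_refl, PEquiv.toMatrix_refl]

theorem Lmat_mul_apply {S : Type*} [NonAssocSemiring S] {J : Type*} (g : G)
    (M : Matrix (G × Fin n) J S) (p : G × Fin n) (q : J) :
    (Lmat n S g * M) p q = M (g⁻¹ * p.1, p.2) q := by
  rw [Lmat, PEquiv.toMatrix_toPEquiv_mul]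
  rfl

theorem mul_Lmat_apply {S : Type*} [NonAssocSemiring S] {J : Type*} [Fintype J] (g : G)
    (M : Matrix J (G × Fin n) S) (p : J) (q : G × Fin n) :
    (M * Lmat n S g) p q = M p (g * q.1, q.2) := by
  rw [Lmat, PEquiv.mul_toMatrix_toPEquiv]
  simp [sig]
  rfl

omit [Fintype G] in
theorem Lmat_map {S T : Type*} [NonAssocSemiring S] [NonAssocSemiring T] (f : S →+* T) (g : G) :
    (Lmat n S g).map f = Lmat n T g := by
  ext p q
  simp only [Lmat, Matrix.map_apply, PEquiv.toMatrix_apply]
  split_ifs <;> simp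

/-- The matrix of "right convolution" by `c`. -/
def conv {S : Type*} (c : G → Matrix (Fin n) (Fin n) S) : Matrix (G × Fin n) (G × Fin n) S :=
  Matrix.of fun p q => c (p.1⁻¹ * q.1) p.2 q.2

theorem Lmat_conv_comm {S : Type*} [NonAssocSemiring S] (c : G → Matrix (Fin n) (Fin n) S) (g : G) :
    Lmat n S g * conv n c = conv n c * Lmat n S g := by
  ext p q
  rw [Lmat_mul_apply, mul_Lmat_apply]
  simp [conv, mul_assoc]

variable {k : Type*} [Field k] (ρbar : G →* GL (Fin n) k)

/-- The Maschke section. -/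
def Abar : Matrix (G × Fin n) (Fin n) k :=
  Matrix.of fun p j => ((Fintype.card G : k))⁻¹ * (ρbar p.1⁻¹).val p.2 j

/-- The projection `k[G]^n → k^n`. -/
def Bbar : Matrix (Fin n) (G × Fin n) k :=
  Matrix.of fun j q => (ρbar q.1).val j q.2

omit [Fintype G] [DecidableEq G] in
theorem rho_mul_apply (g g' : G) (j j' : Fin n) :
    ∑ i, (ρbar g).val j i * (ρbar g').val i j' = (ρbar (g * g')).val j j' := by
  rw [map_mul, Units.val_mul, Matrix.mul_apply]

omit [DecidableEq G] in
theorem Bbar_mul_Abar (hG : (Fintype.card G : k) ≠ 0) : Bbar n ρbar * Abar n ρbar = 1 := by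
  ext j j'
  simp only [Matrix.mul_apply, Fintype.sum_prod_type, Bbar, Abar, Matrix.of_apply]
  have h1 : ∀ h : G, ∑ i, (ρbar h).val j i * ((Fintype.card G : k)⁻¹ * (ρbar h⁻¹).val i j')
      = (Fintype.card G : k)⁻¹ * (1 : Matrix (Fin n) (Fin n) k) j j' := by
    intro h
    have := rho_mul_apply n ρbar h h⁻¹ j j'
    rw [mul_inv_cancel, map_one, Units.val_one] at this
    rw [← this, Finset.mul_sum]
    apply Finset.sum_congr rfl
    intro i _
    ring
  rw [Finset.sum_congr rfl fun h _ => h1 h, Finset.sum_const, Finset.card_univ, nsmul_eq_mul,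
    ← mul_assoc, mul_inv_cancel₀ hG, one_mul]

omit [DecidableEq G] in
theorem Abar_mul_Bbar :
    Abar n ρbar * Bbar n ρbar = conv n (fun g => (Fintype.card G : k)⁻¹ • (ρbar g).val) := by
  ext p q
  simp only [Matrix.mul_apply, Bbar, Abar, Matrix.of_apply, conv, Matrix.smul_apply, smul_eq_mul]
  rw [← rho_mul_apply n ρbar p.1⁻¹ q.1 p.2 q.2, Finset.mul_sum]
  apply Finset.sum_congr rfl
  intro i _
  ring

theorem Bbar_Lmat_Abar (hG : (Fintype.card G : k) ≠ 0) (g : G) :
    Bbar n ρbar * (Lmat n k g * Abar n ρbar) = (ρbar g).val := by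
  ext j j'
  rw [Matrix.mul_apply]
  simp only [Fintype.sum_prod_type, Lmat_mul_apply, Bbar, Abar, Matrix.of_apply]
  have h1 : ∀ h : G, ∑ i, (ρbar h).val j i * ((Fintype.card G : k)⁻¹ * (ρbar (g⁻¹ * h)⁻¹).val i j')
      = (Fintype.card G : k)⁻¹ * (ρbar g).val j j' := by
    intro h
    have := rho_mul_apply n ρbar h (g⁻¹ * h)⁻¹ j j'
    have e : h * (g⁻¹ * h)⁻¹ = g := by group
    rw [e] at this
    rw [← this, Finset.mul_sum]
    apply Finset.sum_congr rfl
    intro i _
    ring
  rw [Finset.sum_congr rfl fun h _ => h1 h, Finset.sum_const, Finset.card_univ, nsmul_eq_mul,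
    ← mul_assoc, mul_inv_cancel₀ hG, one_mul]

end Defs

/-- Rank factorisation of an idempotent matrix over a field. -/
theorem exists_factor {K : Type*} [Field K] {N : Type*} [Fintype N] [DecidableEq N]
    (E : Matrix N N K) (hE : E * E = E) :
    ∃ (b : ℕ) (A : Matrix N (Fin b) K) (B : Matrix (Fin b) N K), A * B = E ∧ B * A = 1 := by
  classical
  set f : (N → K) →ₗ[K] (N → K) := Matrix.toLin' E with hf
  set U := LinearMap.range f with hU
  let β := Module.finBasis K U
  refine ⟨Module.finrank K U, LinearMap.toMatrix β (Pi.basisFun K N) U.subtype,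
    LinearMap.toMatrix (Pi.basisFun K N) β f.rangeRestrict, ?_, ?_⟩
  · rw [← LinearMap.toMatrix_comp]
    have : U.subtype ∘ₗ f.rangeRestrict = f := by
      apply LinearMap.ext
      intro w
      rfl
    rw [this, LinearMap.toMatrix_eq_toMatrix', hf, LinearMap.toMatrix'_toLin']
  · rw [← LinearMap.toMatrix_comp]
    have : f.rangeRestrict ∘ₗ U.subtype = LinearMap.id := by
      apply LinearMap.ext
      rintro ⟨u, hu⟩
      obtain ⟨w, rfl⟩ := hu
      apply Subtype.ext
      show f (f w) = f w
      rw [hf, Matrix.toLin'_apply, Matrix.toLin'_apply, Matrix.mulVec_mulVec, hE]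
    rw [this, LinearMap.toMatrix_id]

theorem le_of_pow_eq {k : Type*} [Field k] (a c : ℕ)
    (h : (X : k[X]) ^ a * (X - 1) ^ c = X ^ c * (X - 1) ^ a) : a ≤ c := by
  by_contra hlt
  push Not at hlt
  obtain ⟨d, rfl⟩ := Nat.exists_eq_add_of_lt hlt
  have h' : (X : k[X]) ^ c * (X ^ (d + 1) * (X - 1) ^ c) = X ^ c * (X - 1) ^ (c + d + 1) := by
    rw [← h]; ring
  have h'' := mul_left_cancel₀ (pow_ne_zero c X_ne_zero) h'
  have := congrArg (Polynomial.eval 0) h''
  simp at this
  exact pow_ne_zero _ (neg_ne_zero.2 one_ne_zero) this.symm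

/-- A polynomial in `x` commutes with everything commuting with `x`. -/
theorem commute_aeval {R : Type*} [CommRing R] {N : Type*} [Fintype N] [DecidableEq N]
    (L x : Matrix N N R) (h : L * x = x * L) (p : R[X]) : L * aeval x p = aeval x p * L := by
  have h1 : Commute L x := h
  have h2 : Commute L (aeval x p) := by
    rw [aeval_eq_sum_range]
    apply Commute.sum_right
    intro i _
    exact (h1.pow_right i).smul_right _
  exact h2

/-- An eigenvalue of a matrix of finite order is a root of unity. -/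
theorem root_pow_eq_one {n : ℕ} (M : Matrix (Fin n) (Fin n) ℂ) (d : ℕ) (hM : M ^ d = 1)
    (z : ℂ) (hz : M.charpoly.eval z = 0) : z ^ d = 1 := by
  rw [Matrix.eval_charpoly] at hz
  obtain ⟨v, hv0, hv⟩ := Matrix.exists_mulVec_eq_zero_iff.2 hz
  have h1 : M.mulVec v = z • v := by
    rw [Matrix.sub_mulVec, sub_eq_zero] at hv
    rw [← hv]
    ext i
    simp [Matrix.mulVec, dotProduct, Matrix.scalar_apply, Matrix.diagonal_apply]
  have h2 : ∀ m : ℕ, (M ^ m).mulVec v = z ^ m • v := by
    intro m
    induction m with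
    | zero => simp
    | succ m ih =>
      rw [pow_succ, ← Matrix.mulVec_mulVec, h1, Matrix.mulVec_smul, ih, smul_smul, pow_succ,
        mul_comm]
  have h3 := h2 d
  rw [hM, Matrix.one_mulVec] at h3
  obtain ⟨i, hi⟩ : ∃ i, v i ≠ 0 := by
    by_contra hcon
    push Not at hcon
    exact hv0 (funext hcon)
  have h4 : v i = z ^ d * v i := congrFun h3 i
  have h5 : (1 - z ^ d) * v i = 0 := by rw [sub_mul, one_mul, ← h4, sub_self]
  rcases mul_eq_zero.1 h5 with h | h
  · exact (sub_eq_zero.1 h).symm
  · exact absurd h hi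

/-- **Lifting**, `Fintype` form. -/
theorem exists_lift_fintype {k : Type*} [Field k] {G : Type*} [Group G] [Fintype G]
    (r : integralClosure ℤ ℂ →+* k) (hr : Function.Surjective r)
    (hG : (Fintype.card G : k) ≠ 0) {n : ℕ} (ρbar : G →* GL (Fin n) k) :
    ∃ ρ : G →* GL (Fin n) ℂ, ∀ g, ∃ s : Multiset (integralClosure ℤ ℂ),
      (∀ a ∈ s, a ^ Fintype.card G = 1) ∧
      (ρ g).val.charpoly = (s.map fun a : integralClosure ℤ ℂ => X - C (a : ℂ)).prod ∧
      (ρbar g).val.charpoly = (s.map fun a => X - C (r a)).prod := by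
  classical
  obtain ⟨R, _, j, ι, φ, hι, hιj, hφj, hunit, hsplit, hsurj⟩ := exists_loc r
  have hφ := hsurj hr
  -- a `G`-equivariant entrywise lift of the Maschke idempotent
  have hc : ∀ g : G, ∃ c : Matrix (Fin n) (Fin n) R,
      c.map φ = (Fintype.card G : k)⁻¹ • (ρbar g).val := by
    intro g
    choose c hc using fun i j' => hφ (((Fintype.card G : k)⁻¹ • (ρbar g).val) i j')
    exact ⟨Matrix.of c, by ext i j'; simp [hc]⟩
  choose c hc using hc
  set x : Matrix (G × Fin n) (G × Fin n) R := conv n c with hx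
  have hxmap : x.map φ = Abar n ρbar * Bbar n ρbar := by
    rw [Abar_mul_Bbar]
    ext p q
    have := congrFun (congrFun (hc (p.1⁻¹ * q.1)) p.2) q.2
    simpa [hx, conv] using this
  have hidem : x.map φ * x.map φ = x.map φ := by
    rw [hxmap, Matrix.mul_assoc, ← Matrix.mul_assoc (Bbar n ρbar), Bbar_mul_Abar n ρbar hG,
      Matrix.one_mul]
  obtain ⟨p, hpp, hpmap⟩ := exists_idem_lift φ hunit hsplit x hidem
  set e := aeval x p with he
  have hcomm : ∀ g : G, Lmat n R g * e = e * Lmat n R g := fun g =>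
    commute_aeval _ _ (Lmat_conv_comm n c g) p
  set E : Matrix (G × Fin n) (G × Fin n) ℂ := e.map ι with hE
  have hEE : E * E = E := by rw [hE, ← Matrix.map_mul, hpp]
  have hcommE : ∀ g, Lmat n ℂ g * E = E * Lmat n ℂ g := by
    intro g
    rw [hE, ← Lmat_map n ι g, ← Matrix.map_mul, ← Matrix.map_mul, hcomm g]
  obtain ⟨b, A, B, hAB, hBA⟩ := exists_factor E hEE
  -- Sylvester identities
  have hsylC : ∀ g : G, X ^ b * (Lmat n ℂ g * E).charpoly
      = X ^ Fintype.card (G × Fin n) * (B * (Lmat n ℂ g * A)).charpoly := by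
    intro g
    have := Matrix.charpoly_mul_comm' (Lmat n ℂ g * A) B
    rw [Fintype.card_fin, Matrix.mul_assoc, hAB] at this
    exact this
  have hsylk : ∀ g : G, X ^ n * (Lmat n k g * (x.map φ)).charpoly
      = X ^ Fintype.card (G × Fin n) * (ρbar g).val.charpoly := by
    intro g
    have := Matrix.charpoly_mul_comm' (Lmat n k g * Abar n ρbar) (Bbar n ρbar)
    rw [Fintype.card_fin, Matrix.mul_assoc, Bbar_Lmat_Abar n ρbar hG g, ← hxmap] at this
    exact this
  -- characteristic polynomials of the `L_g e`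
  have hQι : ∀ g : G, (Lmat n ℂ g * E).charpoly = ((Lmat n R g * e).charpoly).map ι := by
    intro g
    rw [← Matrix.charpoly_map, Matrix.map_mul, Lmat_map]
  have hQφ : ∀ g : G, (Lmat n k g * (x.map φ)).charpoly = ((Lmat n R g * e).charpoly).map φ := by
    intro g
    rw [← Matrix.charpoly_map, Matrix.map_mul, Lmat_map, hpmap]
  -- the rank is `n`
  have hbn : b = n := by
    have h1 := hsylC 1
    have h2 := hsylk 1
    rw [hQι] at h1
    rw [hQφ] at h2
    simp only [Lmat_one, Matrix.one_mul, hBA, Matrix.charpoly_one, Fintype.card_fin] at h1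
    simp only [Lmat_one, Matrix.one_mul, map_one, Units.val_one, Matrix.charpoly_one,
      Fintype.card_fin] at h2
    set Q := e.charpoly with hQ
    set M := Fintype.card (G × Fin n) with hM
    have h1' : X ^ b * Q = X ^ M * (X - 1) ^ b := by
      apply Polynomial.map_injective ι hι
      rw [Polynomial.map_mul, Polynomial.map_pow, Polynomial.map_X, h1]
      simp
    have h1'' : X ^ b * Q.map φ = X ^ M * (X - 1) ^ b := by
      have := congrArg (Polynomial.map φ) h1'
      simpa using this
    have h3 : (X : k[X]) ^ M * (X ^ n * (X - 1) ^ b) = X ^ M * (X ^ b * (X - 1) ^ n) := by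
      calc (X : k[X]) ^ M * (X ^ n * (X - 1) ^ b) = X ^ n * (X ^ b * Q.map φ) := by
            rw [h1'']; ring
        _ = X ^ b * (X ^ n * Q.map φ) := by ring
        _ = X ^ M * (X ^ b * (X - 1) ^ n) := by rw [h2]; ring
    have h4 := mul_left_cancel₀ (pow_ne_zero M X_ne_zero) h3
    exact le_antisymm (le_of_pow_eq b n h4.symm) (le_of_pow_eq n b h4)
  subst hbn
  -- the representation
  have key : ∀ g h : G, (B * (Lmat b ℂ g * A)) * (B * (Lmat b ℂ h * A))
      = B * (Lmat b ℂ (g * h) * A) := by
    intro g h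
    have e1 : (B * (Lmat b ℂ g * A)) * (B * (Lmat b ℂ h * A))
        = B * (Lmat b ℂ g * (A * B)) * (Lmat b ℂ h * A) := by
      simp only [Matrix.mul_assoc]
    have e2 : B * (A * B * Lmat b ℂ g) * (Lmat b ℂ h * A)
        = (B * A) * (B * ((Lmat b ℂ g * Lmat b ℂ h) * A)) := by
      simp only [Matrix.mul_assoc]
    rw [e1, hAB, hcommE g, ← hAB, e2, hBA, Matrix.one_mul, Lmat_mul]
  let f : G →* Matrix (Fin b) (Fin b) ℂ :=
    { toFun := fun g => B * (Lmat b ℂ g * A)
      map_one' := by rw [Lmat_one, Matrix.one_mul, hBA]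
      map_mul' := fun g h => (key g h).symm }
  refine ⟨f.toHomUnits, fun g => ?_⟩
  have hval : (f.toHomUnits g).val = B * (Lmat b ℂ g * A) := rfl
  have hfin : (B * (Lmat b ℂ g * A)) ^ Fintype.card G = 1 := by
    have : f g ^ Fintype.card G = 1 := by rw [← map_pow, pow_card_eq_one, map_one]
    exact this
  set Mg := B * (Lmat b ℂ g * A) with hMg
  have hsp : Mg.charpoly.Splits := IsAlgClosed.splits _
  have hprod := hsp.eq_prod_roots_of_monic (Matrix.charpoly_monic Mg)
  have hroots : ∀ z ∈ Mg.charpoly.roots, z ^ Fintype.card G = 1 := fun z hz =>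
    root_pow_eq_one Mg _ hfin z ((Polynomial.mem_roots (Matrix.charpoly_monic Mg).ne_zero).1 hz)
  have hint : ∀ z ∈ Mg.charpoly.roots, z ∈ integralClosure ℤ ℂ := fun z hz =>
    IsIntegral.of_pow Fintype.card_pos (by rw [hroots z hz]; exact isIntegral_one)
  let s : Multiset (integralClosure ℤ ℂ) :=
    Mg.charpoly.roots.pmap (fun z hz => (⟨z, hz⟩ : integralClosure ℤ ℂ)) hint
  have hs : s.map (fun a : integralClosure ℤ ℂ => (a : ℂ)) = Mg.charpoly.roots := by
    show Multiset.map _ (Multiset.pmap _ _ _) = _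
    rw [Multiset.map_pmap]
    exact (Multiset.pmap_eq_map (· ∈ integralClosure ℤ ℂ) id _ hint).trans (Multiset.map_id _)
  have hcharC : Mg.charpoly = (s.map fun a : integralClosure ℤ ℂ => X - C (a : ℂ)).prod := by
    conv_lhs => rw [hprod, ← hs, Multiset.map_map]
    rfl
  refine ⟨s, ?_, ?_, ?_⟩
  · intro a ha
    obtain ⟨z, hz, rfl⟩ := Multiset.mem_pmap.1 ha
    apply Subtype.ext
    simpa using hroots z hz
  · rw [hval]
    exact hcharC
  · -- the reduction
    set P : R[X] := (s.map fun a => X - C (j a)).prod with hP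
    have hPι : P.map ι = Mg.charpoly := by
      rw [hcharC, hP, Polynomial.map_multiset_prod, Multiset.map_map]
      congr 1
      apply Multiset.map_congr rfl
      intro a _
      simp [hιj]
    have hPφ : P.map φ = (s.map fun a => X - C (r a)).prod := by
      rw [hP, Polynomial.map_multiset_prod, Multiset.map_map]
      congr 1
      apply Multiset.map_congr rfl
      intro a _
      simp [hφj]
    set Q := (Lmat b R g * e).charpoly with hQ
    set M := Fintype.card (G × Fin b) with hM
    have h1 : X ^ b * Q = X ^ M * P := by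
      apply Polynomial.map_injective ι hι
      have := hsylC g
      rw [hQι, ← hPι] at this
      simpa using this
    have h2 : X ^ b * Q.map φ = X ^ M * P.map φ := by
      have := congrArg (Polynomial.map φ) h1
      simpa using this
    have h3 := hsylk g
    rw [hQφ, h2] at h3
    rw [← hPφ]
    exact (mul_left_cancel₀ (pow_ne_zero M X_ne_zero) h3).symm

/-- **Lifting an `ℓ'`-group representation from characteristic `ℓ` to `ℂ`.** -/
theorem exists_lift {k : Type*} [Field k] {G : Type*} [Group G] [Finite G]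
    (r : integralClosure ℤ ℂ →+* k) (hr : Function.Surjective r)
    (hG : (Nat.card G : k) ≠ 0) {n : ℕ} (ρbar : G →* GL (Fin n) k) :
    ∃ ρ : G →* GL (Fin n) ℂ, ∀ g, ∃ s : Multiset (integralClosure ℤ ℂ),
      (∀ a ∈ s, a ^ Nat.card G = 1) ∧
      (ρ g).val.charpoly = (s.map fun a : integralClosure ℤ ℂ => X - C (a : ℂ)).prod ∧
      (ρbar g).val.charpoly = (s.map fun a => X - C (r a)).prod := by
  classical
  have : Fintype G := Fintype.ofFinite G
  rw [Nat.card_eq_fintype_card] at hG ⊢
  exact exists_lift_fintype r hr hG ρbar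

/-- `exists_lift` with surjectivity of `r` for free: `k` algebraic over `ZMod ℓ`. -/
theorem exists_lift_of_algebraic (ℓ : ℕ) [Fact ℓ.Prime] {k : Type*} [Field k] [Algebra (ZMod ℓ) k]
    [Algebra.IsAlgebraic (ZMod ℓ) k] {G : Type*} [Group G] [Finite G]
    (r : integralClosure ℤ ℂ →+* k) (hG : (Nat.card G : k) ≠ 0) {n : ℕ}
    (ρbar : G →* GL (Fin n) k) :
    ∃ ρ : G →* GL (Fin n) ℂ, ∀ g, ∃ s : Multiset (integralClosure ℤ ℂ),
      (∀ a ∈ s, a ^ Nat.card G = 1) ∧
      (ρ g).val.charpoly = (s.map fun a : integralClosure ℤ ℂ => X - C (a : ℂ)).prod ∧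
      (ρbar g).val.charpoly = (s.map fun a => X - C (r a)).prod :=
  exists_lift r (surjective_of_isIntegral r (isIntegral_int_of_algebraic_zmod ℓ)) hG ρbar

/-- Trace and determinant of a `2 × 2` matrix from its split characteristic polynomial. -/
theorem trace_det_of_charpoly {K : Type*} [Field K] (M : Matrix (Fin 2) (Fin 2) K) (a b : K)
    (h : M.charpoly = (X - C a) * (X - C b)) : M.trace = a + b ∧ M.det = a * b := by
  rw [Matrix.charpoly_fin_two] at h
  have h0 := congrArg (Polynomial.eval 0) h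
  have h1 := congrArg (Polynomial.eval 1) h
  simp only [eval_add, eval_sub, eval_mul, eval_pow, eval_X, eval_C] at h0 h1
  have hdet : M.det = a * b := by linear_combination h0
  refine ⟨?_, hdet⟩
  linear_combination hdet - h1

/-- **Lifting, dimension two**: explicit eigenvalues, traces and determinants. -/
theorem exists_lift_two {k : Type*} [Field k] {G : Type*} [Group G] [Finite G]
    (r : integralClosure ℤ ℂ →+* k) (hr : Function.Surjective r)
    (hG : (Nat.card G : k) ≠ 0) (ρbar : G →* GL (Fin 2) k) :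
    ∃ ρ : G →* GL (Fin 2) ℂ, ∀ g, ∃ α β : integralClosure ℤ ℂ,
      α ^ Nat.card G = 1 ∧ β ^ Nat.card G = 1 ∧
      (ρ g).val.charpoly = (X - C (α : ℂ)) * (X - C (β : ℂ)) ∧
      (ρbar g).val.charpoly = (X - C (r α)) * (X - C (r β)) ∧
      (ρ g).val.trace = (α : ℂ) + β ∧ (ρ g).val.det = (α : ℂ) * β ∧
      (ρbar g).val.trace = r α + r β ∧ (ρbar g).val.det = r α * r β := by
  obtain ⟨ρ, hρ⟩ := exists_lift r hr hG ρbar
  refine ⟨ρ, fun g => ?_⟩
  obtain ⟨s, hs1, hsC, hsk⟩ := hρ g
  have hcard : Multiset.card s = 2 := by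
    have h1 : (ρ g).val.charpoly.natDegree = 2 := by
      rw [Matrix.charpoly_natDegree_eq_dim, Fintype.card_fin]
    have h2 : (s.map fun a : integralClosure ℤ ℂ => X - C (a : ℂ))
        = (s.map fun a : integralClosure ℤ ℂ => (a : ℂ)).map (fun z => X - C z) := by
      rw [Multiset.map_map]
      rfl
    rw [hsC, h2, Polynomial.natDegree_multiset_prod_X_sub_C_eq_card, Multiset.card_map] at h1
    exact h1
  obtain ⟨α, β, rfl⟩ := Multiset.card_eq_two.1 hcard
  have hα : α ^ Nat.card G = 1 := hs1 α (by simp)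
  have hβ : β ^ Nat.card G = 1 := hs1 β (by simp)
  have hC : (ρ g).val.charpoly = (X - C (α : ℂ)) * (X - C (β : ℂ)) := by
    rw [hsC]; simp
  have hk : (ρbar g).val.charpoly = (X - C (r α)) * (X - C (r β)) := by
    rw [hsk]; simp
  obtain ⟨t1, d1⟩ := trace_det_of_charpoly _ _ _ hC
  obtain ⟨t2, d2⟩ := trace_det_of_charpoly _ _ _ hk
  exact ⟨α, β, hα, hβ, hC, hk, t1, d1, t2, d2⟩

/-- A reduction map is injective on roots of unity of order prime to the characteristic. -/
theorem eq_of_pow_eq_one_of_map_eq {k : Type*} [Field k] (r : integralClosure ℤ ℂ →+* k)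
    {m : ℕ} (hm : (m : k) ≠ 0) {a b : integralClosure ℤ ℂ} (ha : a ^ m = 1) (hb : b ^ m = 1)
    (hab : r a = r b) : a = b := by
  have hm0 : m ≠ 0 := by
    rintro rfl
    simp at hm
  -- `c := a * b ^ (m - 1)` is an `m`-th root of unity reducing to `1`
  have hbinv : b * b ^ (m - 1) = 1 := by
    rw [← pow_succ', Nat.sub_add_cancel (Nat.one_le_iff_ne_zero.2 hm0), hb]
  set c := a * b ^ (m - 1) with hc
  have hcm : c ^ m = 1 := by
    rw [hc, mul_pow, ha, one_mul, ← pow_mul, mul_comm, pow_mul, hb, one_pow]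
  have hrc : r c = 1 := by
    rw [hc, map_mul, hab, ← map_mul, hbinv, map_one]
  have hc1 : c = 1 := by
    by_contra hne
    have h1 : (c - 1) * ∑ i ∈ Finset.range m, c ^ i = 0 := by
      rw [mul_comm, geom_sum_mul, hcm, sub_self]
    have h2 : ∑ i ∈ Finset.range m, c ^ i = 0 := by
      rcases mul_eq_zero.1 h1 with h | h
      · exact absurd (sub_eq_zero.1 h) hne
      · exact h
    have h3 := congrArg r h2
    rw [map_sum, map_zero] at h3
    simp only [map_pow, hrc, one_pow, Finset.sum_const, Finset.card_range, nsmul_eq_mul,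
      mul_one] at h3
    exact hm h3
  calc a = a * (b * b ^ (m - 1)) := by rw [hbinv, mul_one]
    _ = c * b := by rw [hc]; ring
    _ = b := by rw [hc1, one_mul]

end Fermat.Agent.S48.LiftRep
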