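/-
S48 brick I (helper151), consumer adapters: lifting a representation with FINITE RANGE of an arbitrary
group `Γ` (e.g. the absolute Galois group) from characteristic `ℓ` to `ℂ`.  The lift factors through the
range of the given representation, so `ρbar.ker ≤ ρ.ker` (hence "finite level" and "unramified at `p`"
transfer verbatim).
-/
import Mathlib
import Fermat.Agent.S48.LiftRep.Main

set_option autoImplicit false

open Polynomial

namespace Fermat.Agent.S48.LiftRep

/-- **Lifting a representation with finite range**, any dimension. -/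
theorem exists_lift_range {k : Type*} [Field k] {Γ : Type*} [Group Γ]
    (r : integralClosure ℤ ℂ →+* k) (hr : Function.Surjective r) {n : ℕ}
    (ρbar : Γ →* GL (Fin n) k) [Finite ρbar.range] (hG : (Nat.card ρbar.range : k) ≠ 0) :
    ∃ ρ : Γ →* GL (Fin n) ℂ, ρbar.ker ≤ ρ.ker ∧ ∀ σ, ∃ s : Multiset (integralClosure ℤ ℂ),
      (∀ a ∈ s, a ^ Nat.card ρbar.range = 1) ∧
      (ρ σ).val.charpoly = (s.map fun a : integralClosure ℤ ℂ => X - C (a : ℂ)).prod ∧
      (ρbar σ).val.charpoly = (s.map fun a => X - C (r a)).prod := by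
  obtain ⟨ρG, hρG⟩ := exists_lift r hr hG ρbar.range.subtype
  refine ⟨ρG.comp ρbar.rangeRestrict, ?_, fun σ => ?_⟩
  · intro σ hσ
    rw [MonoidHom.mem_ker] at hσ ⊢
    have h1 : ρbar.rangeRestrict σ = 1 := Subtype.ext hσ
    rw [MonoidHom.comp_apply, h1, map_one]
  · obtain ⟨s, hs1, hsC, hsk⟩ := hρG (ρbar.rangeRestrict σ)
    exact ⟨s, hs1, hsC, hsk⟩

/-- **Lifting a representation with finite range**, dimension two, with traces and determinants. -/
theorem exists_lift_range_two {k : Type*} [Field k] {Γ : Type*} [Group Γ]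
    (r : integralClosure ℤ ℂ →+* k) (hr : Function.Surjective r)
    (ρbar : Γ →* GL (Fin 2) k) [Finite ρbar.range] (hG : (Nat.card ρbar.range : k) ≠ 0) :
    ∃ ρ : Γ →* GL (Fin 2) ℂ, ρbar.ker ≤ ρ.ker ∧ ∀ σ, ∃ α β : integralClosure ℤ ℂ,
      α ^ Nat.card ρbar.range = 1 ∧ β ^ Nat.card ρbar.range = 1 ∧
      (ρ σ).val.charpoly = (X - C (α : ℂ)) * (X - C (β : ℂ)) ∧
      (ρbar σ).val.charpoly = (X - C (r α)) * (X - C (r β)) ∧
      (ρ σ).val.trace = (α : ℂ) + β ∧ (ρ σ).val.det = (α : ℂ) * β ∧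
      (ρbar σ).val.trace = r α + r β ∧ (ρbar σ).val.det = r α * r β := by
  obtain ⟨ρG, hρG⟩ := exists_lift_two r hr hG ρbar.range.subtype
  refine ⟨ρG.comp ρbar.rangeRestrict, ?_, fun σ => ?_⟩
  · intro σ hσ
    rw [MonoidHom.mem_ker] at hσ ⊢
    have h1 : ρbar.rangeRestrict σ = 1 := Subtype.ext hσ
    rw [MonoidHom.comp_apply, h1, map_one]
  · obtain ⟨α, β, h⟩ := hρG (ρbar.rangeRestrict σ)
    exact ⟨α, β, h⟩

/-- The lift of a representation with finite range is itself of finite range, of the same or smaller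
cardinality. -/
theorem exists_lift_range_two_card {k : Type*} [Field k] {Γ : Type*} [Group Γ]
    (r : integralClosure ℤ ℂ →+* k) (hr : Function.Surjective r)
    (ρbar : Γ →* GL (Fin 2) k) [Finite ρbar.range] (hG : (Nat.card ρbar.range : k) ≠ 0) :
    ∃ ρ : Γ →* GL (Fin 2) ℂ, ρbar.ker ≤ ρ.ker ∧ (∀ σ, (ρ σ) ^ Nat.card ρbar.range = 1) ∧
      ∀ σ, ∃ α β : integralClosure ℤ ℂ,
      α ^ Nat.card ρbar.range = 1 ∧ β ^ Nat.card ρbar.range = 1 ∧
      (ρ σ).val.charpoly = (X - C (α : ℂ)) * (X - C (β : ℂ)) ∧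
      (ρbar σ).val.charpoly = (X - C (r α)) * (X - C (r β)) ∧
      (ρ σ).val.trace = (α : ℂ) + β ∧ (ρ σ).val.det = (α : ℂ) * β ∧
      (ρbar σ).val.trace = r α + r β ∧ (ρbar σ).val.det = r α * r β := by
  obtain ⟨ρ, hker, hρ⟩ := exists_lift_range_two r hr ρbar hG
  refine ⟨ρ, hker, fun σ => ?_, hρ⟩
  have h1 : (ρbar σ) ^ Nat.card ρbar.range = 1 := by
    have h2 : (ρbar.rangeRestrict σ) ^ Nat.card ρbar.range = 1 := pow_card_eq_one'
    have h3 := congrArg Subtype.val h2
    simpa using h3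
  have h4 : σ ^ Nat.card ρbar.range ∈ ρbar.ker := by
    rw [MonoidHom.mem_ker, map_pow, h1]
  have h5 := hker h4
  rw [MonoidHom.mem_ker, map_pow] at h5
  exact h5

end Fermat.Agent.S48.LiftRep
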